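import Fermat.Agent.SquarefreeFF.Twist
import Fermat.Agent.PlaneBertini.Eliminant
import Mathlib.FieldTheory.Finite.Basic
import Mathlib.RingTheory.Polynomial.Basic

/-!
# The local densities

Conditions modulo a polynomial of degree at most `n` are equidistributed among the polynomials of
degree less than `n`; those modulo the squares of distinct irreducibles are independent.
-/

set_option autoImplicit false
set_option linter.style.openClassical false
set_option linter.style.haveILetI false
set_option linter.unusedSectionVars false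

noncomputable section

open scoped Classical

namespace FA.SquarefreeFF

variable {k : Type*} [Field k] [Fintype k]

variable (k) in
/-- The polynomials of degree less than `n`. -/
abbrev Deg (n : ℕ) : Type _ := ↥(Polynomial.degreeLT k n)

instance (n : ℕ) : Finite (Deg k n) :=
  Finite.of_equiv _ (Polynomial.degreeLTEquiv k n).toEquiv.symm

theorem natCard_deg (n : ℕ) : Nat.card (Deg k n) = Fintype.card k ^ n := by
  rw [Nat.card_congr (Polynomial.degreeLTEquiv k n).toEquiv, Nat.card_fun, Nat.card_fin,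
    Nat.card_eq_fintype_card]

theorem natDegree_lt_of_deg {n : ℕ} (hn : n ≠ 0) (a : Deg k n) : a.1.natDegree < n := by
  rcases eq_or_ne a.1 0 with h | h
  · rw [h, Polynomial.natDegree_zero]; omega
  · rw [Polynomial.natDegree_lt_iff_degree_lt h]
    exact Polynomial.mem_degreeLT.mp a.2

/-- The proportion of the polynomials of degree less than `n` with a property. -/
def prop (n : ℕ) (s : Polynomial k → Prop) : ℝ :=
  (Nat.card {a : Deg k n // s a.1} : ℝ) / (Fintype.card k : ℝ) ^ n

theorem q_pos : (0 : ℝ) < Fintype.card k := by exact_mod_cast Fintype.card_pos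

theorem prop_nonneg (n : ℕ) (s : Polynomial k → Prop) : 0 ≤ prop n s := by
  unfold prop; positivity

theorem prop_mono {n : ℕ} {s t : Polynomial k → Prop}
    (h : ∀ a : Deg k n, s a.1 → t a.1) : prop n s ≤ prop n t := by
  refine div_le_div_of_nonneg_right ?_ (by positivity)
  exact_mod_cast Nat.card_le_card_of_injective
    (Subtype.map id fun a ha => h a ha) (Subtype.map_injective _ Function.injective_id)

theorem prop_or_le (n : ℕ) (s t : Polynomial k → Prop) :
    prop n (fun a => s a ∨ t a) ≤ prop n s + prop n t := by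
  haveI := Fintype.ofFinite (Deg k n)
  rw [prop, prop, prop, ← add_div]
  refine div_le_div_of_nonneg_right ?_ (by positivity)
  rw [Nat.card_eq_fintype_card, Nat.card_eq_fintype_card, Nat.card_eq_fintype_card]
  exact_mod_cast Fintype.card_subtype_or (fun a : Deg k n => s a.1) (fun a => t a.1)

theorem prop_exists_le (n : ℕ) {ι : Type*} (S : Finset ι) (s : ι → Polynomial k → Prop) :
    prop n (fun a => ∃ i ∈ S, s i a) ≤ ∑ i ∈ S, prop n (s i) := by
  induction S using Finset.induction_on with
  | empty => simp [prop]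
  | insert x S hx ih =>
    rw [Finset.sum_insert hx]
    refine le_trans ?_ (le_trans (prop_or_le n (s x) _) (add_le_add le_rfl ih))
    exact prop_mono fun a ⟨i, hi, ha⟩ => (Finset.mem_insert.mp hi).elim
      (fun h => Or.inl (h ▸ ha)) fun h => Or.inr ⟨i, h, ha⟩

/-- **Conditions modulo `M`** are equidistributed in degree less than `n ≥ deg M`. -/
theorem prop_of_mod {M : Polynomial k} (hM : M.Monic) {n : ℕ} (hn : M.natDegree ≤ n)
    {s : Polynomial k → Prop} (hs : ∀ a b, M ∣ a - b → (s a ↔ s b)) :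
    prop n s = (Nat.card {r : Deg k M.natDegree // s r.1} : ℝ) /
      (Fintype.card k : ℝ) ^ M.natDegree := by
  have hdeg : ∀ x : Deg k M.natDegree × Deg k (n - M.natDegree),
      x.1.1 + M * x.2.1 ∈ Polynomial.degreeLT k n := fun x => by
    refine Submodule.add_mem _ (Polynomial.degreeLT_mono hn x.1.2) ?_
    rcases eq_or_ne x.2.1 0 with h0 | h0
    · rw [h0, mul_zero]; exact Submodule.zero_mem _
    rw [Polynomial.mem_degreeLT,
      ← Polynomial.natDegree_lt_iff_degree_lt (mul_ne_zero hM.ne_zero h0),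
      Polynomial.natDegree_mul hM.ne_zero h0]
    have := (Polynomial.natDegree_lt_iff_degree_lt h0).mpr (Polynomial.mem_degreeLT.mp x.2.2)
    omega
  let φ : Deg k M.natDegree × Deg k (n - M.natDegree) → Deg k n := fun x => ⟨_, hdeg x⟩
  have hinj : Function.Injective φ := fun x y h => by
    have h' : x.1.1 + M * x.2.1 = y.1.1 + M * y.2.1 := congrArg Subtype.val h
    have h1 : x.1.1 - y.1.1 = 0 := by
      refine Polynomial.eq_zero_of_dvd_of_degree_lt (p := M) ⟨y.2.1 - x.2.1, by
        linear_combination h'⟩ ?_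
      rw [Polynomial.degree_eq_natDegree hM.ne_zero]
      exact Polynomial.mem_degreeLT.mp (Submodule.sub_mem _ x.1.2 y.1.2)
    have h2 : M * x.2.1 = M * y.2.1 := by linear_combination h' - h1
    exact Prod.ext (Subtype.ext (sub_eq_zero.mp h1))
      (Subtype.ext (mul_left_cancel₀ hM.ne_zero h2))
  have hbij : Function.Bijective φ :=
    hinj.bijective_of_nat_card_le (by
      rw [Nat.card_prod, natCard_deg, natCard_deg, natCard_deg, ← pow_add, Nat.add_sub_cancel' hn])
  have hcard : Nat.card {a : Deg k n // s a.1} =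
      Nat.card {r : Deg k M.natDegree // s r.1} * Fintype.card k ^ (n - M.natDegree) := by
    rw [← natCard_deg, ← Nat.card_prod, ← Nat.card_congr ((Equiv.ofBijective φ hbij).subtypeEquiv
      (p := fun x => s x.1.1) fun x => hs _ _ ⟨-x.2.1, by
        show x.1.1 - (x.1.1 + M * x.2.1) = _
        ring⟩)]
    exact Nat.card_congr
      { toFun := fun x => (⟨x.1.1, x.2⟩, x.1.2)
        invFun := fun x => ⟨(x.1.1, x.2), x.1.2⟩
        left_inv := fun x => rfl
        right_inv := fun x => rfl }
  rw [prop, hcard]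
  obtain ⟨i, rfl⟩ : ∃ i, n = M.natDegree + i := ⟨n - M.natDegree, by omega⟩
  rw [Nat.add_sub_cancel_left, Nat.cast_mul, Nat.cast_pow, pow_add,
    mul_div_mul_right _ _ (pow_ne_zero _ q_pos.ne')]

open MvPolynomial

/-- The number of roots of `f` modulo `P²`. -/
def rootCount (f : MvPolynomial (Fin 2) k) (P : Polynomial k) : ℕ :=
  Nat.card {r : Deg k (2 * P.natDegree) // P ^ 2 ∣ val f r.1}

/-- The probability that `P²` divides a value. -/
def rootShare (f : MvPolynomial (Fin 2) k) (P : Polynomial k) : ℝ :=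
  (rootCount f P : ℝ) / (Fintype.card k : ℝ) ^ (2 * P.natDegree)

theorem rootShare_nonneg (f : MvPolynomial (Fin 2) k) (P : Polynomial k) : 0 ≤ rootShare f P := by
  unfold rootShare; positivity

theorem rootCount_le (f : MvPolynomial (Fin 2) k) (P : Polynomial k) :
    rootCount f P ≤ Fintype.card k ^ (2 * P.natDegree) :=
  (Finite.card_subtype_le _).trans_eq (natCard_deg _)

theorem rootShare_le_one (f : MvPolynomial (Fin 2) k) (P : Polynomial k) : rootShare f P ≤ 1 := by
  have hq := q_pos (k := k)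
  rw [rootShare, div_le_one (by positivity)]
  exact_mod_cast rootCount_le f P

/-- **One square.** -/
theorem prop_sq_dvd (f : MvPolynomial (Fin 2) k) {P : Polynomial k} (hP : P.Monic) {n : ℕ}
    (hn : 2 * P.natDegree ≤ n) : prop n (fun a => P ^ 2 ∣ val f a) = rootShare f P := by
  have hd : (P ^ 2).natDegree = 2 * P.natDegree := Polynomial.natDegree_pow P 2
  rw [prop_of_mod (hP.pow 2) (hd ▸ hn) fun a b h => dvd_val_iff f h]
  rw [rootShare, rootCount, hd]

/-- **Several squares.** -/
theorem prop_forall_not_sq_dvd (f : MvPolynomial (Fin 2) k) {S : Finset (Polynomial k)}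
    (hS : ∀ P ∈ S, P.Monic ∧ Irreducible P) {n : ℕ}
    (hn : ∑ P ∈ S, 2 * P.natDegree ≤ n) :
    prop n (fun a => ∀ P ∈ S, ¬ P ^ 2 ∣ val f a) = ∏ P ∈ S, (1 - rootShare f P) := by
  set M := ∏ P ∈ S, P ^ 2
  have hM : M.Monic := Polynomial.monic_prod_of_monic _ _ fun P hP => (hS P hP).1.pow 2
  have hdeg : M.natDegree = ∑ P ∈ S, 2 * P.natDegree := by
    rw [Polynomial.natDegree_prod_of_monic _ _ fun P hP => (hS P hP).1.pow 2]
    exact Finset.sum_congr rfl fun P _ => Polynomial.natDegree_pow P 2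
  have hdvd : ∀ a b, M ∣ a - b → ∀ P ∈ S, (P ^ 2 ∣ val f a ↔ P ^ 2 ∣ val f b) :=
    fun a b h P hP => dvd_val_iff f ((Finset.dvd_prod_of_mem (fun P => P ^ 2) hP).trans h)
  rw [prop_of_mod hM (hdeg ▸ hn) fun a b h =>
    forall₂_congr fun P hP => not_congr (hdvd a b h P hP)]
  have hred : ∀ (P : S) (r : Deg k M.natDegree),
      r.1 %ₘ P.1 ^ 2 ∈ Polynomial.degreeLT k (2 * P.1.natDegree) := fun P r => by
    have h := Polynomial.degree_modByMonic_lt r.1 ((hS P.1 P.2).1.pow 2)
    rw [Polynomial.degree_eq_natDegree ((hS P.1 P.2).1.pow 2).ne_zero,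
      Polynomial.natDegree_pow] at h
    exact Polynomial.mem_degreeLT.mpr h
  let ψ : Deg k M.natDegree → ∀ P : S, Deg k (2 * P.1.natDegree) := fun r P => ⟨_, hred P r⟩
  have hsub : ∀ (P : S) (r : Polynomial k), P.1 ^ 2 ∣ r - r %ₘ P.1 ^ 2 := fun P r => by
    exact ⟨r /ₘ P.1 ^ 2, by linear_combination (Polynomial.modByMonic_add_div r (P.1 ^ 2)).symm⟩
  have hinj : Function.Injective ψ := fun r r' h => by
    refine Subtype.ext (sub_eq_zero.mp (Polynomial.eq_zero_of_dvd_of_degree_lt (p := M) ?_ ?_))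
    · refine Finset.prod_dvd_of_isRelPrime (fun P hP Q hQ hne => ?_) fun P hP => ?_
      · refine (Irreducible.isRelPrime_iff_not_dvd (hS P hP).2).mpr (fun hd => hne ?_) |>.pow
        exact Polynomial.eq_of_monic_of_associated (hS P hP).1 (hS Q hQ).1
          ((hS P hP).2.associated_of_dvd (hS Q hQ).2 hd)
      · have h1 := hsub ⟨P, hP⟩ r.1
        have h2 := hsub ⟨P, hP⟩ r'.1
        have h3 : r.1 %ₘ P ^ 2 = r'.1 %ₘ P ^ 2 :=
          congrArg Subtype.val (congrFun h ⟨P, hP⟩)
        have h4 := dvd_sub h1 h2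
        rwa [h3, sub_sub_sub_cancel_right] at h4
    · rw [Polynomial.degree_eq_natDegree hM.ne_zero]
      exact Polynomial.mem_degreeLT.mp (Submodule.sub_mem _ r.2 r'.2)
  have hbij : Function.Bijective ψ := hinj.bijective_of_nat_card_le (by
    rw [Nat.card_pi, natCard_deg, hdeg, ← Finset.prod_pow_eq_pow_sum,
      ← Finset.prod_coe_sort S (fun P => Fintype.card k ^ (2 * P.natDegree))]
    exact (Finset.prod_congr rfl fun P _ => natCard_deg _).le)
  have hiff : ∀ r : Deg k M.natDegree, (∀ P ∈ S, ¬ P ^ 2 ∣ val f r.1) ↔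
      ∀ P : S, ¬ P.1 ^ 2 ∣ val f (ψ r P).1 := fun r =>
    ⟨fun h P => fun hd => h P.1 P.2 ((dvd_val_iff f (hsub P r.1)).mpr hd),
      fun h P hP => fun hd => h ⟨P, hP⟩ ((dvd_val_iff f (hsub ⟨P, hP⟩ r.1)).mp hd)⟩
  have e1 : {r : Deg k M.natDegree // ∀ P ∈ S, ¬ P ^ 2 ∣ val f r.1} ≃
      {w : ∀ P : S, Deg k (2 * P.1.natDegree) // ∀ P : S, ¬ P.1 ^ 2 ∣ val f (w P).1} :=
    (Equiv.ofBijective ψ hbij).subtypeEquiv hiff
  have e2 : {w : ∀ P : S, Deg k (2 * P.1.natDegree) // ∀ P : S, ¬ P.1 ^ 2 ∣ val f (w P).1} ≃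
      ∀ P : S, {x : Deg k (2 * P.1.natDegree) // ¬ P.1 ^ 2 ∣ val f x.1} :=
    Equiv.subtypePiEquivPi (p := fun (P : S) (x : Deg k (2 * P.1.natDegree)) =>
      ¬ P.1 ^ 2 ∣ val f x.1)
  have hcard := Nat.card_congr (e1.trans e2)
  rw [Nat.card_pi] at hcard
  rw [hcard, Nat.cast_prod, hdeg, ← Finset.prod_pow_eq_pow_sum,
    ← Finset.prod_coe_sort S (fun P => (Fintype.card k : ℝ) ^ (2 * P.natDegree)),
    ← Finset.prod_div_distrib, ← Finset.prod_coe_sort S]
  refine Finset.prod_congr rfl fun P _ => ?_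
  haveI := Fintype.ofFinite (Deg k (2 * P.1.natDegree))
  have hq := q_pos (k := k)
  rw [Nat.card_eq_fintype_card, Fintype.card_subtype_compl, ← Nat.card_eq_fintype_card,
    ← Nat.card_eq_fintype_card, natCard_deg, ← rootCount, Nat.cast_sub (rootCount_le f P.1),
    Nat.cast_pow, sub_div, div_self (by positivity), rootShare]

variable (k) in
/-- The monic irreducibles of degree at most `r`. -/
def irrSet (r : ℕ) : Finset (Polynomial k) :=
  ((Set.toFinite (Set.range (Subtype.val : Deg k (r + 1) → Polynomial k))).toFinset).filter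
    fun P => P.Monic ∧ Irreducible P

theorem mem_irrSet {r : ℕ} {P : Polynomial k} :
    P ∈ irrSet k r ↔ P.natDegree ≤ r ∧ P.Monic ∧ Irreducible P := by
  simp only [irrSet, Finset.mem_filter, Set.Finite.mem_toFinset, Subtype.range_coe_subtype,
    Set.mem_ofPred_eq, Polynomial.mem_degreeLT]
  refine and_congr_left fun h => ?_
  rw [← Polynomial.natDegree_lt_iff_degree_lt h.1.ne_zero]
  omega

theorem card_filter_natDegree_le (r e : ℕ) :
    ((irrSet k r).filter fun P => P.natDegree = e).card ≤ Fintype.card k ^ e := by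
  rw [← natCard_deg, ← Nat.card_eq_finsetCard]
  have hmem : ∀ P : ↥((irrSet k r).filter fun P => P.natDegree = e),
      P.1 - Polynomial.X ^ e ∈ Polynomial.degreeLT k e := fun P => by
    obtain ⟨h, hd⟩ := Finset.mem_filter.mp P.2
    obtain ⟨-, hm, hi⟩ := mem_irrSet.mp h
    rw [Polynomial.mem_degreeLT]
    have hdeg : P.1.degree = (e : WithBot ℕ) := by
      rw [Polynomial.degree_eq_natDegree hi.ne_zero, hd]
    have hXdeg : ((Polynomial.X : Polynomial k) ^ e).degree = (e : WithBot ℕ) :=
      Polynomial.degree_X_pow e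
    have := Polynomial.degree_sub_lt_left (hdeg.trans hXdeg.symm) hi.ne_zero
      (by rw [hm.leadingCoeff, (Polynomial.monic_X_pow e).leadingCoeff])
    rwa [hdeg] at this
  exact Nat.card_le_card_of_injective (fun P => ⟨_, hmem P⟩)
    fun P Q h => Subtype.ext (sub_left_injective (congrArg Subtype.val h))

/-- **Few roots modulo the square** of a large irreducible off the eliminant. -/
theorem rootCount_le_totalDegree {f : MvPolynomial (Fin 2) k} (hf : f ≠ 0) {s R : Polynomial k}
    {u v : MvPolynomial (Fin 2) k} (huv : u * f + v * twist f s = inT R) {P : Polynomial k}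
    (hP : Irreducible P) (hdeg : f.totalDegree < P.natDegree) (hR : ¬ P ∣ R) :
    rootCount f P ≤ f.totalDegree := by
  haveI := Fintype.ofFinite (Deg k (2 * P.natDegree))
  rw [rootCount, Nat.card_eq_fintype_card, Fintype.card_subtype]
  refine le_of_eq_of_le (Finset.card_image_of_injective _ Subtype.val_injective).symm
    (card_roots_mod_le hf hP hdeg _ (fun a ha => ?_) fun a ha b hb hab => ?_)
  · obtain ⟨r, hr, rfl⟩ := Finset.mem_image.mp ha
    exact (dvd_pow_self P two_ne_zero).trans (Finset.mem_filter.mp hr).2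
  obtain ⟨⟨a, ha'⟩, har, rfl⟩ := Finset.mem_image.mp ha
  obtain ⟨⟨b, hb'⟩, hbr, rfl⟩ := Finset.mem_image.mp hb
  have hsa := (Finset.mem_filter.mp har).2
  have hsb := (Finset.mem_filter.mp hbr).2
  have hx : ¬ P ∣ val (pderiv 1 f) b := fun hd => hR <| by
    have h1 : P ∣ (val f b).derivative := dvd_derivative_of_sq_dvd hsb
    rw [derivative_val, twist, val_add] at h1
    have h2 : P ∣ val (pderiv 0 f) b := by
      refine (dvd_add_left ?_).mp h1
      rw [val, map_mul]
      exact dvd_mul_of_dvd_right hd _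
    rw [← val_inT R b, ← huv, val_add]
    refine dvd_add ?_ ?_
    · rw [val, map_mul]
      exact dvd_mul_of_dvd_right ((dvd_pow_self P two_ne_zero).trans hsb) _
    · rw [val, map_mul, twist, map_add, map_mul]
      exact dvd_mul_of_dvd_right (dvd_add h2 (dvd_mul_of_dvd_right hd _)) _
  obtain ⟨c, hc⟩ := hab
  obtain ⟨z, hz⟩ := exists_val_add f b (a - b)
  rw [add_sub_cancel, hc] at hz
  have h3 : P ^ 2 ∣ P * c * val (pderiv 1 f) b := by
    rw [show P * c * val (pderiv 1 f) b = val f a - val f b - (P * c) ^ 2 * z by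
      rw [hz]; ring]
    exact dvd_sub (dvd_sub hsa hsb) ((pow_dvd_pow_of_dvd (dvd_mul_right P c) 2).mul_right z)
  rw [pow_two, mul_assoc, mul_dvd_mul_iff_left hP.ne_zero] at h3
  obtain ⟨d, hd⟩ := (hP.prime.dvd_mul.mp h3).resolve_right hx
  refine sub_eq_zero.mp (Polynomial.eq_zero_of_dvd_of_degree_lt (p := P ^ 2) ⟨d, ?_⟩ ?_)
  · rw [hc, hd]; ring
  · rw [Polynomial.degree_eq_natDegree (pow_ne_zero 2 hP.ne_zero), Polynomial.natDegree_pow]
    exact Polynomial.mem_degreeLT.mp (Submodule.sub_mem _ ha' hb')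

end FA.SquarefreeFF
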