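import Mathlib.Algebra.CharP.Frobenius
import Mathlib.Algebra.MvPolynomial.NoZeroDivisors
import Mathlib.Algebra.MvPolynomial.PDeriv
import Mathlib.FieldTheory.Perfect
import Mathlib.RingTheory.AdjoinRoot
import Mathlib.RingTheory.MvPolynomial.Basic
import Mathlib.RingTheory.Polynomial.UniqueFactorization
import Mathlib.Tactic

/-!
# Values of a polynomial in two variables at polynomials in one

`val f a = f(t, a(t))`; its derivative is the value of `f_t + a' f_x`, and it is affine in `a`
modulo the square of a perturbation.
-/

set_option autoImplicit false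
set_option linter.style.openClassical false
set_option linter.style.haveILetI false

noncomputable section

open scoped Classical

namespace FA.SquarefreeFF

open MvPolynomial

variable {k : Type*} [Field k]

/-- The value `f(t, a(t))`. -/
def val (f : MvPolynomial (Fin 2) k) (a : Polynomial k) : Polynomial k :=
  aeval ![Polynomial.X, a] f

/-- A polynomial in the first variable. -/
abbrev inT (R : Polynomial k) : MvPolynomial (Fin 2) k := Polynomial.aeval (X 0) R

/-- The polynomial whose value at an `a` of derivative `s` is the derivative of the value of `f`. -/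
def twist (f : MvPolynomial (Fin 2) k) (s : Polynomial k) : MvPolynomial (Fin 2) k :=
  pderiv 0 f + inT s * pderiv 1 f

theorem val_add (f g : MvPolynomial (Fin 2) k) (a : Polynomial k) :
    val (f + g) a = val f a + val g a := map_add _ _ _

theorem val_inT (R a : Polynomial k) : val (inT R) a = R := by
  rw [val, inT, ← Polynomial.aeval_algHom_apply, aeval_X, Matrix.cons_val_zero,
    Polynomial.aeval_X_left_apply]

/-- The expansion to first order. -/
theorem exists_val_add (f : MvPolynomial (Fin 2) k) (a b : Polynomial k) :
    ∃ z, val f (a + b) = val f a + b * val (pderiv 1 f) a + b ^ 2 * z := by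
  induction f using MvPolynomial.induction_on with
  | C c => exact ⟨0, by simp [val]⟩
  | add u v hu hv =>
    obtain ⟨z, hz⟩ := hu
    obtain ⟨w, hw⟩ := hv
    refine ⟨z + w, ?_⟩
    simp only [val, map_add] at hz hw ⊢
    rw [hz, hw]
    ring
  | mul_X u i hu =>
    obtain ⟨z, hz⟩ := hu
    fin_cases i
    · refine ⟨z * Polynomial.X, ?_⟩
      simp only [val] at hz ⊢
      simp [hz]
      ring
    · refine ⟨z * (a + b) + aeval ![Polynomial.X, a] (pderiv 1 u), ?_⟩
      simp only [val] at hz ⊢
      simp [hz]
      ring

theorem dvd_val_sub (f : MvPolynomial (Fin 2) k) {M a b : Polynomial k} (h : M ∣ a - b) :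
    M ∣ val f a - val f b := by
  obtain ⟨z, hz⟩ := exists_val_add f b (a - b)
  rw [add_sub_cancel] at hz
  rw [hz, show val f b + (a - b) * val (pderiv 1 f) b + (a - b) ^ 2 * z - val f b =
    (a - b) * (val (pderiv 1 f) b + (a - b) * z) by ring]
  exact h.mul_right _

theorem dvd_val_iff (f : MvPolynomial (Fin 2) k) {M a b : Polynomial k} (h : M ∣ a - b) :
    M ∣ val f a ↔ M ∣ val f b :=
  dvd_iff_dvd_of_dvd_sub (dvd_val_sub f h)

/-- **The chain rule.** -/
theorem derivative_val (f : MvPolynomial (Fin 2) k) (a : Polynomial k) :
    (val f a).derivative = val (twist f a.derivative) a := by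
  have h : (val f a).derivative =
      val (pderiv 0 f) a + a.derivative * val (pderiv 1 f) a := by
    induction f using MvPolynomial.induction_on with
    | C c => simp [val]
    | add u v hu hv =>
      simp only [val, map_add] at hu hv ⊢
      rw [hu, hv]
      ring
    | mul_X u i hu =>
      simp only [val] at hu ⊢
      fin_cases i <;> simp [hu] <;> ring
  rw [h, twist, val_add]
  congr 1
  rw [val, val, map_mul]
  exact congrArg (· * _) (val_inT a.derivative a).symm

theorem dvd_derivative_of_sq_dvd {P h : Polynomial k} (hd : P ^ 2 ∣ h) : P ∣ h.derivative := by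
  obtain ⟨c, rfl⟩ := hd
  exact ⟨2 * P.derivative * c + P * c.derivative, by
    rw [Polynomial.derivative_mul, pow_two, Polynomial.derivative_mul]; ring⟩

/-- `f` as a polynomial in the second variable. -/
def inX (f : MvPolynomial (Fin 2) k) : Polynomial (Polynomial k) :=
  aeval ![Polynomial.C Polynomial.X, Polynomial.X] f

theorem eval_inX (f : MvPolynomial (Fin 2) k) (a : Polynomial k) :
    (inX f).eval a = val f a := by
  induction f using MvPolynomial.induction_on with
  | C c => simp [inX, val, Polynomial.algebraMap_apply]
  | add u v hu hv => simp only [inX, val, map_add, Polynomial.eval_add] at hu hv ⊢; rw [hu, hv]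
  | mul_X u i hu =>
    simp only [inX, val, map_mul, Polynomial.eval_mul] at hu ⊢
    fin_cases i <;> simp [hu]

theorem inX_injective : Function.Injective (inX (k := k)) := by
  have h : ∀ f : MvPolynomial (Fin 2) k,
      Polynomial.eval₂RingHom ((Polynomial.aeval (X 0 : MvPolynomial (Fin 2) k)).toRingHom)
        (X 1) (inX f) = f := fun f => by
    induction f using MvPolynomial.induction_on with
    | C c => simp [inX, Polynomial.algebraMap_apply]
    | add u v hu hv => simp only [inX, map_add] at hu hv ⊢; rw [hu, hv]
    | mul_X u i hu =>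
      simp only [inX, map_mul] at hu ⊢
      rw [hu, aeval_X]
      fin_cases i <;> simp
  exact fun f g e => by rw [← h f, e, h g]

theorem natDegree_inX_le (f : MvPolynomial (Fin 2) k) :
    (inX f).natDegree ≤ f.totalDegree ∧ ∀ i, ((inX f).coeff i).natDegree ≤ f.totalDegree := by
  have hmon : ∀ s ∈ f.support,
      aeval ![Polynomial.C (Polynomial.X : Polynomial k), Polynomial.X] (monomial s (f.coeff s)) =
        Polynomial.monomial (s 1) (Polynomial.monomial (s 0) (f.coeff s)) := fun s _ => by
    rw [aeval_monomial, Finsupp.prod_fintype _ _ fun _ => pow_zero _, Fin.prod_univ_two]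
    simp [Polynomial.algebraMap_apply, ← Polynomial.C_mul_X_pow_eq_monomial]
    ring
  have hs : ∀ s ∈ f.support, s 0 + s 1 ≤ f.totalDegree := fun s hs => by
    have h := le_totalDegree hs
    rwa [Finsupp.sum_fintype _ _ fun _ => rfl, Fin.sum_univ_two] at h
  rw [inX]
  constructor
  · rw [f.as_sum, map_sum, ← f.as_sum]
    refine Polynomial.natDegree_sum_le_of_forall_le _ _ fun s hsf => ?_
    rw [hmon s hsf]
    exact (Polynomial.natDegree_monomial_le _).trans (le_trans le_add_self (hs s hsf))
  · intro i
    rw [f.as_sum, map_sum, Polynomial.finsetSum_coeff, ← f.as_sum]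
    refine Polynomial.natDegree_sum_le_of_forall_le _ _ fun s hsf => ?_
    rw [hmon s hsf, Polynomial.coeff_monomial]
    split
    · exact (Polynomial.natDegree_monomial_le _).trans (le_trans le_self_add (hs s hsf))
    · simp

/-- **Few roots** modulo an irreducible of large degree. -/
theorem card_roots_mod_le {f : MvPolynomial (Fin 2) k} (hf : f ≠ 0) {P : Polynomial k}
    (hP : Irreducible P) (hdeg : f.totalDegree < P.natDegree) (S : Finset (Polynomial k))
    (hS : ∀ a ∈ S, P ∣ val f a) (hinj : ∀ a ∈ S, ∀ b ∈ S, P ∣ a - b → a = b) :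
    S.card ≤ f.totalDegree := by
  haveI := Fact.mk hP
  set φ := (inX f).map (AdjoinRoot.mk P) with hφ
  have hφ0 : φ ≠ 0 := by
    intro h0
    obtain ⟨i, hi⟩ : ∃ i, (inX f).coeff i ≠ 0 := by
      by_contra! h
      refine hf (inX_injective ?_)
      rw [show inX (0 : MvPolynomial (Fin 2) k) = 0 from map_zero _]
      exact Polynomial.ext fun i => by rw [h i, Polynomial.coeff_zero]
    have h := congrArg (fun g => Polynomial.coeff g i) h0
    simp only [hφ, Polynomial.coeff_map, Polynomial.coeff_zero, AdjoinRoot.mk_eq_zero] at h
    have := Polynomial.natDegree_le_of_dvd h hi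
    have := (natDegree_inX_le f).2 i
    omega
  calc S.card = (S.image (AdjoinRoot.mk P)).card := (Finset.card_image_of_injOn
        fun a ha b hb h => hinj a ha b hb (AdjoinRoot.mk_eq_mk.mp h)).symm
    _ ≤ φ.roots.toFinset.card := Finset.card_le_card fun x hx => by
        obtain ⟨a, ha, rfl⟩ := Finset.mem_image.mp hx
        rw [Multiset.mem_toFinset, Polynomial.mem_roots hφ0, Polynomial.IsRoot, hφ,
          Polynomial.eval_map, Polynomial.eval₂_at_apply, eval_inX, AdjoinRoot.mk_eq_zero]
        exact hS a ha
    _ ≤ φ.natDegree := (Multiset.toFinset_card_le _).trans (Polynomial.card_roots' _)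
    _ ≤ f.totalDegree := Polynomial.natDegree_map_le.trans (natDegree_inX_le f).1

end FA.SquarefreeFF
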