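import Fermat.Agent.SquarefreeFF.Local

/-!
# Square divisors of high degree

With `a = a₀ + b^p` the derivative of `f(t, a)` is the value of `f_t + a₀' f_x`, whose eliminant
with `f` leaves few primes `P`, and for each few `b` modulo `P`.
-/

set_option autoImplicit false
set_option linter.style.openClassical false
set_option linter.style.haveILetI false
set_option linter.unusedSectionVars false

noncomputable section

open scoped Classical

namespace FA.SquarefreeFF

open MvPolynomial

variable {k : Type*} [Field k] [Fintype k]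

theorem natCard_slices_le {A B : Type*} [Finite A] (s : A → B → Prop) [Finite B] {C : ℕ}
    (h : ∀ a, Nat.card {b // s a b} ≤ C) :
    Nat.card {x : A × B // s x.1 x.2} ≤ Nat.card A * C := by
  haveI := Fintype.ofFinite A
  rw [Nat.card_congr (Equiv.subtypeProdEquivSigmaSubtype s), Nat.card_sigma,
    Nat.card_eq_fintype_card (α := A)]
  refine (Finset.sum_le_sum fun a _ => h a).trans (le_of_eq ?_)
  rw [Finset.sum_const, Finset.card_univ, smul_eq_mul]

/-- A nonzero polynomial has few distinct monic irreducible divisors. -/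
theorem card_le_natDegree {R : Polynomial k} (hR : R ≠ 0) {S : Finset (Polynomial k)}
    (hS : ∀ P ∈ S, P.Monic ∧ Irreducible P ∧ P ∣ R) : S.card ≤ R.natDegree := by
  have hd : ∏ P ∈ S, P ∣ R := Finset.prod_dvd_of_isRelPrime (fun P hP Q hQ hne => by
    refine (Irreducible.isRelPrime_iff_not_dvd (hS P hP).2.1).mpr fun hd => hne ?_
    exact Polynomial.eq_of_monic_of_associated (hS P hP).1 (hS Q hQ).1
      ((hS P hP).2.1.associated_of_dvd (hS Q hQ).2.1 hd)) fun P hP => (hS P hP).2.2
  refine le_trans ?_ (Polynomial.natDegree_le_of_dvd hd hR)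
  rw [Polynomial.natDegree_prod_of_monic _ _ fun P hP => (hS P hP).1, Finset.card_eq_sum_ones]
  exact Finset.sum_le_sum fun P hP => (hS P hP).2.1.natDegree_pos

theorem totalDegree_twist_le (f : MvPolynomial (Fin 2) k) (s : Polynomial k) :
    (twist f s).totalDegree ≤ f.totalDegree + s.natDegree := by
  have h : ∀ i, (pderiv i f).totalDegree ≤ f.totalDegree := fun i => by
    rcases eq_or_ne (pderiv i f) 0 with h0 | h0
    · rw [h0, totalDegree_zero]; exact Nat.zero_le _
    · exact (totalDegree_pderiv_lt_self h0).le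
  refine (totalDegree_add _ _).trans (max_le ((h 0).trans (Nat.le_add_right _ _)) ?_)
  refine (totalDegree_mul _ _).trans ?_
  rw [add_comm f.totalDegree]
  exact Nat.add_le_add (FA.PlaneBertini.totalDegree_aeval_X_le 0 s) (h 1)

section

variable {p : ℕ} [Fact p.Prime] [CharP k p] {n γ : ℕ}

theorem pow_mem_degreeLT (hγ : p * γ ≤ n) (b : Deg k γ) :
    b.1 ^ p ∈ Polynomial.degreeLT k n ∧
      Polynomial.X * b.1 ^ p ∈ Polynomial.degreeLT k n := by
  rcases eq_or_ne b.1 0 with h | h
  · rw [h, zero_pow (Fact.out : p.Prime).ne_zero, mul_zero]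
    exact ⟨Submodule.zero_mem _, Submodule.zero_mem _⟩
  have hb : b.1.natDegree < γ :=
    (Polynomial.natDegree_lt_iff_degree_lt h).mpr (Polynomial.mem_degreeLT.mp b.2)
  have hp := (Fact.out : p.Prime).two_le
  have h1 : p * (b.1.natDegree + 1) ≤ p * γ := Nat.mul_le_mul_left p hb
  rw [mul_add, mul_one] at h1
  constructor
  · rw [Polynomial.mem_degreeLT, ← Polynomial.natDegree_lt_iff_degree_lt (pow_ne_zero p h),
      Polynomial.natDegree_pow]
    omega
  · rw [Polynomial.mem_degreeLT, ← Polynomial.natDegree_lt_iff_degree_lt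
      (mul_ne_zero Polynomial.X_ne_zero (pow_ne_zero p h)), Polynomial.natDegree_X_mul
      (pow_ne_zero p h), Polynomial.natDegree_pow]
    omega

theorem derivative_pow_char (b : Polynomial k) : (b ^ p).derivative = 0 := by
  rw [Polynomial.derivative_pow, CharP.cast_eq_zero k p, map_zero, zero_mul, zero_mul]

theorem pow_char_injective {R : Type*} [CommRing R] [IsReduced R] [CharP R p] :
    Function.Injective fun x : R => x ^ p := fun x y h => by
  haveI : ExpChar R p := ExpChar.prime (Fact.out : p.Prime)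
  exact frobenius_inj R p h

/-- `a₀ + b^p`. -/
def shift (hγ : p * γ ≤ n) (x : Deg k n × Deg k γ) : Deg k n :=
  ⟨x.1.1 + x.2.1 ^ p, Submodule.add_mem _ x.1.2 (pow_mem_degreeLT hγ x.2).1⟩

/-- **Transfer to `a₀ + b^p`.** -/
theorem natCard_shift (hγ : p * γ ≤ n) (s : Polynomial k → Prop) :
    Nat.card {x : Deg k n × Deg k γ // s (shift hγ x).1} =
      Nat.card {a : Deg k n // s a.1} * Fintype.card k ^ γ := by
  let e : Deg k n × Deg k γ ≃ Deg k n × Deg k γ :=
    { toFun := fun x => (shift hγ x, x.2)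
      invFun := fun x => (x.1 - ⟨x.2.1 ^ p, (pow_mem_degreeLT hγ x.2).1⟩, x.2)
      left_inv := fun x => Prod.ext (Subtype.ext (by simp [shift])) rfl
      right_inv := fun x => Prod.ext (Subtype.ext (by simp [shift])) rfl }
  rw [← natCard_deg, ← Nat.card_prod,
    Nat.card_congr (e.subtypeEquiv (p := fun x => s (shift hγ x).1) (q := fun x => s x.1.1)
      fun x => Iff.rfl)]
  exact Nat.card_congr
    { toFun := fun x => (⟨x.1.1, x.2⟩, x.1.2)
      invFun := fun x => ⟨(x.1.1, x.2), x.1.2⟩
      left_inv := fun x => rfl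
      right_inv := fun x => rfl }

/-- Few `a₀` have a given derivative. -/
theorem natCard_derivative_eq_mul_le (hγ : p * γ ≤ n) (s : Polynomial k) :
    Nat.card {a : Deg k n // a.1.derivative = s} * Fintype.card k ^ γ ≤ Fintype.card k ^ n := by
  rw [← natCard_deg, ← natCard_deg, ← Nat.card_prod]
  refine Nat.card_le_card_of_injective
    (fun x => ⟨x.1.1.1 + Polynomial.X * x.2.1 ^ p,
      Submodule.add_mem _ x.1.1.2 (pow_mem_degreeLT hγ x.2).2⟩) fun x y h => ?_
  have h' : x.1.1.1 + Polynomial.X * x.2.1 ^ p = y.1.1.1 + Polynomial.X * y.2.1 ^ p :=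
    congrArg Subtype.val h
  have hd := congrArg Polynomial.derivative h'
  simp only [map_add, Polynomial.derivative_mul, Polynomial.derivative_X, derivative_pow_char,
    one_mul, mul_zero, add_zero, x.1.2, y.1.2, add_right_inj] at hd
  have h2 : x.2.1 = y.2.1 := pow_char_injective (p := p) hd
  rw [h2, add_left_inj] at h'
  exact Prod.ext (Subtype.ext (Subtype.ext h')) (Subtype.ext h2)

/-- For one prime there are few `b`. -/
theorem natCard_dvd_shift_le {f : MvPolynomial (Fin 2) k} (hf : f ≠ 0)
    {P : Polynomial k} (hP : Irreducible P) (hdeg : f.totalDegree < P.natDegree)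
    (hPγ : γ ≤ P.natDegree) (a : Deg k n) :
    Nat.card {b : Deg k γ // P ∣ val f (a.1 + b.1 ^ p)} ≤ f.totalDegree := by
  haveI := Fintype.ofFinite (Deg k γ)
  haveI := Fact.mk hP
  have hkey : ∀ b c : Deg k γ, P ∣ (a.1 + b.1 ^ p) - (a.1 + c.1 ^ p) → b = c := fun b c h => by
    rw [add_sub_add_left_eq_sub] at h
    haveI : ExpChar (Polynomial k) p := ExpChar.prime (Fact.out : p.Prime)
    rw [← sub_pow_expChar] at h
    have hd := hP.prime.dvd_of_dvd_pow h
    refine Subtype.ext (sub_eq_zero.mp (Polynomial.eq_zero_of_dvd_of_degree_lt hd ?_))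
    refine lt_of_lt_of_le (Polynomial.mem_degreeLT.mp (Submodule.sub_mem _ b.2 c.2)) ?_
    rw [Polynomial.degree_eq_natDegree hP.ne_zero]
    exact_mod_cast hPγ
  have hinj : Function.Injective fun b : Deg k γ => a.1 + b.1 ^ p := fun b c h =>
    hkey b c (by rw [show a.1 + b.1 ^ p = a.1 + c.1 ^ p from h, sub_self]; exact dvd_zero P)
  rw [Nat.card_eq_fintype_card, Fintype.card_subtype]
  refine le_of_eq_of_le (Finset.card_image_of_injective _ hinj).symm
    (card_roots_mod_le hf hP hdeg _ (fun x hx => ?_) fun x hx y hy hxy => ?_)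
  · obtain ⟨b, hb, rfl⟩ := Finset.mem_image.mp hx
    exact (Finset.mem_filter.mp hb).2
  · obtain ⟨b, -, rfl⟩ := Finset.mem_image.mp hx
    obtain ⟨c, -, rfl⟩ := Finset.mem_image.mp hy
    rw [hkey b c hxy]

/-- **The high degree square divisors**, counted. -/
theorem natCard_high_le {f : MvPolynomial (Fin 2) k} (hf : Squarefree f) (hγ : p * γ ≤ n) :
    Nat.card {a : Deg k n // ∃ P : Polynomial k, P.Monic ∧ Irreducible P ∧
        n / 2 < P.natDegree ∧ f.totalDegree < P.natDegree ∧ P ^ 2 ∣ val f a.1} *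
      Fintype.card k ^ γ ≤
    (f.totalDegree + f.totalDegree ^ 2 * (f.totalDegree + n)) * Fintype.card k ^ n := by
  set D := f.totalDegree
  haveI : PerfectField k := PerfectField.ofFinite
  obtain ⟨E, hEcard, hE⟩ := exists_exceptional hf
  haveI := Fintype.ofFinite (Deg k n)
  haveI := Fintype.ofFinite (Deg k γ)
  set bad := fun a : Deg k n => ∃ P : Polynomial k, P.Monic ∧ Irreducible P ∧
    n / 2 < P.natDegree ∧ D < P.natDegree ∧ P ^ 2 ∣ val f a.1
  have hexc : Nat.card {x : Deg k n × Deg k γ // x.1.1.derivative ∈ E} ≤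
      D * Fintype.card k ^ n := by
    have h : Nat.card {x : Deg k n × Deg k γ // x.1.1.derivative ∈ E} =
        ∑ s ∈ E, Nat.card {a : Deg k n // a.1.derivative = s} * Fintype.card k ^ γ := by
      rw [← Finset.sum_mul, ← natCard_deg (k := k) γ,
        ← Finset.sum_coe_sort E (fun s => Nat.card {a : Deg k n // a.1.derivative = s}),
        ← Nat.card_sigma, ← Nat.card_prod]
      exact Nat.card_congr
        { toFun := fun x => (⟨⟨x.1.1.1.derivative, x.2⟩, ⟨x.1.1, rfl⟩⟩, x.1.2)
          invFun := fun x => ⟨(x.1.2.1, x.2), by rw [x.1.2.2]; exact x.1.1.2⟩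
          left_inv := fun x => rfl
          right_inv := by
            rintro ⟨⟨⟨s, hs⟩, ⟨a, ha⟩⟩, b⟩
            change a.1.derivative = s at ha
            subst ha
            rfl }
    rw [h]
    refine (Finset.sum_le_sum fun s _ => natCard_derivative_eq_mul_le hγ s).trans ?_
    rw [Finset.sum_const, smul_eq_mul]
    exact Nat.mul_le_mul_right _ hEcard
  have hgen : ∀ a : Deg k n, Nat.card {b : Deg k γ //
      a.1.derivative ∉ E ∧ bad (shift hγ (a, b))} ≤ D ^ 2 * (D + n) := fun a => by
    by_cases ha : a.1.derivative ∈ E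
    · simp [ha]
    obtain ⟨R, hR0, hRd, u, v, huv⟩ := FA.PlaneBertini.exists_eliminant (hE _ ha) 0 le_rfl
      (le_rfl : (twist f a.1.derivative).totalDegree ≤ _)
    set S := (irrSet k R.natDegree).filter fun P => P ∣ R ∧ n / 2 < P.natDegree ∧ D < P.natDegree
    have hS : S.card ≤ D * (D + n) := by
      refine ((card_le_natDegree hR0 fun P hP => ?_).trans hRd).trans
        (Nat.mul_le_mul_left _ ((totalDegree_twist_le f _).trans ?_))
      · obtain ⟨h1, h2, -, -⟩ := Finset.mem_filter.mp hP
        exact ⟨(mem_irrSet.mp h1).2.1, (mem_irrSet.mp h1).2.2, h2⟩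
      · exact Nat.add_le_add_left ((Polynomial.natDegree_derivative_le _).trans
          ((Nat.sub_le _ _).trans (Polynomial.natDegree_le_iff_degree_le.mpr
            (Polynomial.mem_degreeLT.mp a.2).le))) _
    have hmem : ∀ b : {b : Deg k γ // a.1.derivative ∉ E ∧ bad (shift hγ (a, b))},
        ∃ P : S, P.1 ∣ val f (a.1 + b.1.1 ^ p) := fun b => by
      obtain ⟨P, hm, hi, h1, h2, hd⟩ := b.2.2
      have hPR : P ∣ R := by
        have hder : P ∣ (val f (shift hγ (a, b.1)).1).derivative := dvd_derivative_of_sq_dvd hd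
        rw [derivative_val] at hder
        have hsh : (shift hγ (a, b.1)).1.derivative = a.1.derivative := by
          simp [shift, derivative_pow_char]
        rw [hsh] at hder
        rw [← val_inT R (shift hγ (a, b.1)).1,
          show inT R = u * f + v * twist f a.1.derivative from huv.symm, val_add]
        refine dvd_add ?_ ?_
        · rw [val, map_mul]
          exact dvd_mul_of_dvd_right ((dvd_pow_self P two_ne_zero).trans hd) _
        · rw [val, map_mul]
          exact dvd_mul_of_dvd_right hder _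
      exact ⟨⟨P, Finset.mem_filter.mpr ⟨mem_irrSet.mpr
        ⟨Polynomial.natDegree_le_of_dvd hPR hR0, hm, hi⟩, hPR, h1, h2⟩⟩,
        (dvd_pow_self P two_ne_zero).trans hd⟩
    choose P hP using hmem
    refine (Nat.card_le_card_of_injective
      (β := Σ Q : S, {b : Deg k γ // Q.1 ∣ val f (a.1 + b.1 ^ p)})
      (fun b => ⟨P b, ⟨b.1, hP b⟩⟩) fun b c h => Subtype.ext (congrArg
        (fun x : Σ Q : S, {b : Deg k γ // Q.1 ∣ val f (a.1 + b.1 ^ p)} => x.2.1) h)).trans ?_
    rw [Nat.card_sigma]
    refine (Finset.sum_le_sum fun Q _ => natCard_dvd_shift_le hf.ne_zero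
      (mem_irrSet.mp (Finset.mem_filter.mp Q.2).1).2.2
      (Finset.mem_filter.mp Q.2).2.2.2 ?_ a).trans ?_
    · have := (Finset.mem_filter.mp Q.2).2.2.1
      have hp := (Fact.out : p.Prime).two_le
      have : 2 * γ ≤ n := le_trans (Nat.mul_le_mul_right γ hp) hγ
      omega
    · rw [Finset.sum_const, Finset.card_univ, Fintype.card_coe, smul_eq_mul]
      calc S.card * D ≤ D * (D + n) * D := Nat.mul_le_mul_right _ hS
        _ = D ^ 2 * (D + n) := by ring
  have htot := natCard_slices_le
    (fun (a : Deg k n) (b : Deg k γ) => a.1.derivative ∉ E ∧ bad (shift hγ (a, b))) hgen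
  have hsplit : Nat.card {x : Deg k n × Deg k γ // bad (shift hγ x)} ≤
      Nat.card {x : Deg k n × Deg k γ // x.1.1.derivative ∈ E} +
        Nat.card {x : Deg k n × Deg k γ // x.1.1.derivative ∉ E ∧ bad (shift hγ x)} := by
    rw [Nat.card_eq_fintype_card, Nat.card_eq_fintype_card, Nat.card_eq_fintype_card]
    exact le_trans (Fintype.card_subtype_mono _ _ fun x hx => (em _).imp id fun h => ⟨h, hx⟩)
      (Fintype.card_subtype_or _ _)
  rw [← natCard_shift hγ (fun a => ∃ P : Polynomial k, P.Monic ∧ Irreducible P ∧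
    n / 2 < P.natDegree ∧ D < P.natDegree ∧ P ^ 2 ∣ val f a)]
  refine hsplit.trans ((Nat.add_le_add hexc htot).trans (le_of_eq ?_))
  rw [natCard_deg]
  ring

end

/-- **Square divisors of high degree are rare.** -/
theorem prop_high_le (p : ℕ) [Fact p.Prime] [CharP k p] {f : MvPolynomial (Fin 2) k}
    (hf : Squarefree f) (n : ℕ) :
    prop n (fun a => ∃ P : Polynomial k, P.Monic ∧ Irreducible P ∧
        n / 2 < P.natDegree ∧ f.totalDegree < P.natDegree ∧ P ^ 2 ∣ val f a) ≤
      ((f.totalDegree + f.totalDegree ^ 2 * (f.totalDegree + n) : ℕ) : ℝ) /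
        (Fintype.card k : ℝ) ^ (n / p) := by
  have hq := q_pos (k := k)
  rw [prop, div_le_div_iff₀ (by positivity) (by positivity)]
  exact_mod_cast natCard_high_le (γ := n / p) hf (Nat.mul_div_le n p)

end FA.SquarefreeFF
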