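import Fermat.Agent.SquarefreeFF.High
import Fermat.Agent.PlaneBertini.Main

/-!
# Poonen's squarefree sieve over `F_q[t]`

The proportion of squarefree values tends to the product of the local densities, which converges
and is positive as soon as all its factors are.
-/

set_option autoImplicit false
set_option linter.style.openClassical false
set_option linter.style.haveILetI false
set_option linter.unusedSectionVars false

noncomputable section

open scoped Classical Topology
open Filter

namespace FA.SquarefreeFF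

variable {k : Type*} [Field k] [Fintype k]

open MvPolynomial

theorem squarefree_iff_forall (h : Polynomial k) :
    Squarefree h ↔ ∀ P : Polynomial k, P.Monic → Irreducible P → ¬ P ^ 2 ∣ h := by
  rw [squarefree_iff_irreducible_sq_not_dvd_of_exists_irreducible
    ⟨Polynomial.X, Polynomial.irreducible_X⟩]
  refine ⟨fun hh P _ hP => by rw [pow_two]; exact hh P hP, fun hh x hx hd => ?_⟩
  have hassoc := normalize_associated x
  refine hh (normalize x) (Polynomial.monic_normalize hx.ne_zero) (hassoc.symm.irreducible hx) ?_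
  rw [pow_two]
  exact (hassoc.mul_mul hassoc).dvd.trans hd

/-- The truncated product. -/
def partialProd (f : MvPolynomial (Fin 2) k) (r : ℕ) : ℝ :=
  ∏ P ∈ irrSet k r, (1 - rootShare f P)

/-- The density: the product over all monic irreducibles. -/
def density (f : MvPolynomial (Fin 2) k) : ℝ := ⨅ r, partialProd f r

theorem partialProd_nonneg (f : MvPolynomial (Fin 2) k) (r : ℕ) : 0 ≤ partialProd f r :=
  Finset.prod_nonneg fun P _ => sub_nonneg.mpr (rootShare_le_one f P)

theorem irrSet_mono {r R : ℕ} (h : r ≤ R) : irrSet k r ⊆ irrSet k R := fun P hP => by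
  rw [mem_irrSet] at hP ⊢
  exact ⟨hP.1.trans h, hP.2⟩

theorem partialProd_antitone (f : MvPolynomial (Fin 2) k) : Antitone (partialProd f) :=
  fun r R h => by
    rw [partialProd, partialProd, ← Finset.prod_sdiff (irrSet_mono h)]
    exact mul_le_of_le_one_left (partialProd_nonneg f r)
      (Finset.prod_le_one (fun P _ => sub_nonneg.mpr (rootShare_le_one f P))
        fun P _ => sub_le_self _ (rootShare_nonneg f P))

theorem bddBelow_partialProd (f : MvPolynomial (Fin 2) k) :
    BddBelow (Set.range (partialProd f)) :=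
  ⟨0, by rintro _ ⟨r, rfl⟩; exact partialProd_nonneg f r⟩

/-- **The product converges.** -/
theorem tendsto_partialProd (f : MvPolynomial (Fin 2) k) :
    Tendsto (partialProd f) atTop (𝓝 (density f)) :=
  tendsto_atTop_ciInf (partialProd_antitone f) (bddBelow_partialProd f)

/-- Off finitely many primes there are at most `deg f` roots modulo the square. -/
theorem exists_threshold {f : MvPolynomial (Fin 2) k} (hf : Squarefree f) :
    ∃ r0, f.totalDegree ≤ r0 ∧ ∀ P : Polynomial k, Irreducible P → r0 < P.natDegree →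
      rootCount f P ≤ f.totalDegree := by
  haveI : PerfectField k := PerfectField.ofFinite
  obtain ⟨E, -, hE⟩ := exists_exceptional hf
  obtain ⟨s, hs⟩ := Infinite.exists_notMem_finset E
  obtain ⟨R, hR, -, u, v, huv⟩ :=
    FA.PlaneBertini.exists_eliminant (hE s hs) 0 le_rfl (le_rfl : (twist f s).totalDegree ≤ _)
  refine ⟨max f.totalDegree R.natDegree, le_max_left _ _, fun P hP hdeg => ?_⟩
  exact rootCount_le_totalDegree hf.ne_zero huv hP (lt_of_le_of_lt (le_max_left _ _) hdeg)
    fun h => (Polynomial.natDegree_le_of_dvd h hR).not_gt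
      (lt_of_le_of_lt (le_max_right _ _) hdeg)

/-- The tail of the sum of the local shares. -/
theorem sum_rootShare_le {f : MvPolynomial (Fin 2) k} {r0 : ℕ}
    (h0 : ∀ P : Polynomial k, Irreducible P → r0 < P.natDegree → rootCount f P ≤ f.totalDegree)
    {r : ℕ} (hr : r0 ≤ r) (R : ℕ) :
    ∑ P ∈ (irrSet k R).filter (fun P => r < P.natDegree), rootShare f P ≤
      f.totalDegree * ((Fintype.card k : ℝ)⁻¹) ^ r := by
  set q : ℝ := (Fintype.card k : ℝ)
  have hq2 : (2 : ℝ) ≤ q := by
    simp only [q]; exact_mod_cast (Fintype.one_lt_card : 1 < Fintype.card k)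
  rw [← Finset.sum_fiberwise_of_maps_to (g := Polynomial.natDegree) (t := Finset.Ioc r R)
    fun P hP => Finset.mem_Ioc.mpr
      ⟨(Finset.mem_filter.mp hP).2, (mem_irrSet.mp (Finset.mem_filter.mp hP).1).1⟩]
  refine le_trans
    (Finset.sum_le_sum (g := fun e => (f.totalDegree : ℝ) * q⁻¹ ^ e) fun e he => ?_) ?_
  · refine le_trans (Finset.sum_le_sum
      (g := fun _ => (f.totalDegree : ℝ) * (q ^ (2 * e))⁻¹) fun P hP => ?_) ?_
    · obtain ⟨hP', he'⟩ := Finset.mem_filter.mp hP
      obtain ⟨h1, h2⟩ := Finset.mem_filter.mp hP'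
      rw [rootShare, he', ← div_eq_mul_inv]
      exact div_le_div_of_nonneg_right
        (Nat.cast_le.mpr (h0 P (mem_irrSet.mp h1).2.2 (lt_of_le_of_lt hr h2))) (by positivity)
    rw [Finset.sum_const, nsmul_eq_mul]
    have hc : (((((irrSet k R).filter fun P => r < P.natDegree).filter
        fun P => P.natDegree = e).card : ℕ) : ℝ) ≤ q ^ e := by
      simp only [q]
      exact_mod_cast (Finset.card_le_card
        (Finset.filter_subset_filter _ (Finset.filter_subset _ _))).trans
          (card_filter_natDegree_le R e)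
    calc _ ≤ q ^ e * ((f.totalDegree : ℝ) * (q ^ (2 * e))⁻¹) :=
          mul_le_mul_of_nonneg_right hc (by positivity)
      _ = (f.totalDegree : ℝ) * q⁻¹ ^ e := by
          rw [two_mul, pow_add, inv_pow]
          field_simp
  · rw [← Finset.mul_sum]
    exact mul_le_mul_of_nonneg_left (FA.PlaneBertini.sum_Ioc_pow_le (by positivity)
      ((inv_le_comm₀ (by positivity) (by norm_num)).mpr (by linarith)) r R) (Nat.cast_nonneg _)

theorem one_sub_sum_le_prod {ι : Type*} (S : Finset ι) (x : ι → ℝ) (h0 : ∀ i ∈ S, 0 ≤ x i)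
    (h1 : ∀ i ∈ S, x i ≤ 1) : 1 - ∑ i ∈ S, x i ≤ ∏ i ∈ S, (1 - x i) := by
  induction S using Finset.induction_on with
  | empty => simp
  | insert a S ha ih =>
    rw [Finset.sum_insert ha, Finset.prod_insert ha]
    have ha0 := h0 a (Finset.mem_insert_self _ _)
    have hS0 : 0 ≤ ∑ i ∈ S, x i :=
      Finset.sum_nonneg fun i hi => h0 i (Finset.mem_insert_of_mem hi)
    have hih := mul_le_mul_of_nonneg_left
      (ih (fun i hi => h0 i (Finset.mem_insert_of_mem hi))
        fun i hi => h1 i (Finset.mem_insert_of_mem hi))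
      (sub_nonneg.mpr (h1 a (Finset.mem_insert_self _ _)))
    nlinarith [mul_nonneg ha0 hS0]

/-- **Positivity**: exactly when no square of an irreducible divides every value. -/
theorem density_pos_iff {f : MvPolynomial (Fin 2) k} (hf : Squarefree f) :
    0 < density f ↔
      ∀ P : Polynomial k, P.Monic → Irreducible P → ∃ a, ¬ P ^ 2 ∣ val f a := by
  have hfac : ∀ P : Polynomial k, P.Monic →
      ((∃ a, ¬ P ^ 2 ∣ val f a) ↔ rootShare f P < 1) := fun P hP => by
    have hdeg : (P ^ 2).natDegree = 2 * P.natDegree := Polynomial.natDegree_pow P 2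
    rw [rootShare, div_lt_one (by have := q_pos (k := k); positivity), ← Nat.cast_pow, Nat.cast_lt]
    constructor
    · rintro ⟨a, ha⟩
      refine lt_of_le_of_ne (rootCount_le f P) fun heq => ha ?_
      have hall : ∀ r : Deg k (2 * P.natDegree), P ^ 2 ∣ val f r.1 := fun r => by
        by_contra hr
        haveI := Fintype.ofFinite (Deg k (2 * P.natDegree))
        rw [rootCount, Nat.card_eq_fintype_card, ← natCard_deg, Nat.card_eq_fintype_card] at heq
        exact (Fintype.card_subtype_lt (p := fun r : Deg k (2 * P.natDegree) =>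
          P ^ 2 ∣ val f r.1) hr).ne heq
      refine (dvd_val_iff f (b := a %ₘ P ^ 2)
        ⟨a /ₘ P ^ 2, by linear_combination (Polynomial.modByMonic_add_div a (P ^ 2)).symm⟩).mpr
          (hall ⟨a %ₘ P ^ 2, ?_⟩)
      have h := Polynomial.degree_modByMonic_lt a (hP.pow 2)
      rw [Polynomial.degree_eq_natDegree (hP.pow 2).ne_zero, hdeg] at h
      exact Polynomial.mem_degreeLT.mpr h
    · intro hlt
      by_contra! hno
      refine hlt.ne ?_
      rw [rootCount, Nat.card_congr (Equiv.subtypeUnivEquiv fun r : Deg k _ => hno r.1),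
        natCard_deg]
  constructor
  · intro hpos P hm hi
    rw [hfac P hm]
    refine lt_of_le_of_ne (rootShare_le_one f P) fun h1 => ?_
    refine (hpos.trans_le (ciInf_le (bddBelow_partialProd f) P.natDegree)).ne' ?_
    exact Finset.prod_eq_zero (mem_irrSet.mpr ⟨le_rfl, hm, hi⟩) (by rw [h1, sub_self])
  · intro hall
    have hpos : ∀ r, 0 < partialProd f r := fun r => Finset.prod_pos fun P hP =>
      sub_pos.mpr ((hfac P (mem_irrSet.mp hP).2.1).mp
        (hall P (mem_irrSet.mp hP).2.1 (mem_irrSet.mp hP).2.2))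
    obtain ⟨r0, -, h0⟩ := exists_threshold hf
    obtain ⟨r, hr0, hr⟩ : ∃ r, r0 ≤ r ∧
        (f.totalDegree : ℝ) * ((Fintype.card k : ℝ)⁻¹) ^ r < 1 / 2 := by
      have hq : (Fintype.card k : ℝ)⁻¹ < 1 :=
        inv_lt_one_of_one_lt₀ (by exact_mod_cast Fintype.one_lt_card)
      have h := (tendsto_pow_atTop_nhds_zero_of_lt_one (by positivity) hq).const_mul
        (f.totalDegree : ℝ)
      rw [mul_zero] at h
      exact ((eventually_ge_atTop r0).and (h.eventually (gt_mem_nhds (by norm_num)))).exists
    refine lt_of_lt_of_le (half_pos (hpos r)) (le_ciInf fun R => ?_)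
    rcases le_total R r with hR | hR
    · exact (half_le_self (hpos r).le).trans (partialProd_antitone f hR)
    rw [partialProd, partialProd, ← Finset.prod_sdiff (irrSet_mono hR), div_eq_inv_mul]
    refine mul_le_mul_of_nonneg_right ?_ (partialProd_nonneg f r)
    refine le_trans ?_ (one_sub_sum_le_prod _ _ (fun P _ => rootShare_nonneg f P)
      fun P _ => rootShare_le_one f P)
    have hsub : irrSet k R \ irrSet k r ⊆ (irrSet k R).filter fun P => r < P.natDegree :=
      fun P hP => by
        obtain ⟨h1, h2⟩ := Finset.mem_sdiff.mp hP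
        refine Finset.mem_filter.mpr ⟨h1, not_le.mp fun h => h2 ?_⟩
        exact mem_irrSet.mpr ⟨h, (mem_irrSet.mp h1).2⟩
    have := (Finset.sum_le_sum_of_subset_of_nonneg hsub
      fun P _ _ => rootShare_nonneg f P).trans (sum_rootShare_le h0 hr0 R)
    norm_num
    linarith

/-- **Poonen's theorem.** -/
theorem tendsto_prop_squarefree {f : MvPolynomial (Fin 2) k} (hf : Squarefree f) :
    Tendsto (fun n => prop n fun a => Squarefree (val f a)) atTop (𝓝 (density f)) := by
  obtain ⟨p, hp⟩ := CharP.exists k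
  have hpp : p.Prime := CharP.char_is_prime k p
  haveI : Fact p.Prime := ⟨hpp⟩
  set q : ℝ := (Fintype.card k : ℝ)
  set D := f.totalDegree
  have hq : 1 < q := by simp only [q]; exact_mod_cast Fintype.one_lt_card
  obtain ⟨r0, hr0D, h0⟩ := exists_threshold hf
  rw [Metric.tendsto_atTop]
  intro ε hε
  have hmed := (tendsto_pow_atTop_nhds_zero_of_lt_one (by positivity)
    (inv_lt_one_of_one_lt₀ hq)).const_mul (D : ℝ)
  rw [mul_zero] at hmed
  obtain ⟨r, ⟨hr1, hr2⟩, hr3⟩ :=
    (((Metric.tendsto_nhds.mp (tendsto_partialProd f) (ε / 3) (by linarith)).and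
      (hmed.eventually (gt_mem_nhds (by linarith : (0 : ℝ) < ε / 3)))).and
        (eventually_ge_atTop r0)).exists
  have hhigh := (FA.PlaneBertini.tendsto_high p hpp.pos hq).const_mul (((D : ℝ) + 1) ^ 3)
  rw [mul_zero] at hhigh
  obtain ⟨N, hN⟩ := eventually_atTop.mp
    (hhigh.eventually (gt_mem_nhds (by linarith : (0 : ℝ) < ε / 3)))
  refine ⟨max (∑ P ∈ irrSet k r, 2 * P.natDegree) N, fun n hn => ?_⟩
  obtain ⟨hn1, hn2⟩ := max_le_iff.mp hn
  have hlow : prop n (fun a => ∀ P ∈ irrSet k r, ¬ P ^ 2 ∣ val f a) = partialProd f r := by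
    rw [partialProd]
    exact prop_forall_not_sq_dvd f (fun P hP => (mem_irrSet.mp hP).2) hn1
  have hup : prop n (fun a => Squarefree (val f a)) ≤ partialProd f r := by
    rw [← hlow]
    refine prop_mono fun a ha P hP => ?_
    exact (squarefree_iff_forall _).mp ha P (mem_irrSet.mp hP).2.1 (mem_irrSet.mp hP).2.2
  have hdown : partialProd f r ≤ prop n (fun a => Squarefree (val f a)) +
      ((D : ℝ) * q⁻¹ ^ r + ((D : ℝ) + 1) ^ 3 * (((n : ℝ) + 1) ^ 4 / q ^ (n / (3 * p)))) := by
    refine le_trans hlow.ge (le_trans (prop_mono (t := fun a => Squarefree (val f a) ∨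
      (∃ P ∈ (irrSet k (n / 2)).filter (fun P => r < P.natDegree), P ^ 2 ∣ val f a) ∨
        ∃ P : Polynomial k, P.Monic ∧ Irreducible P ∧ n / 2 < P.natDegree ∧
          D < P.natDegree ∧ P ^ 2 ∣ val f a) ?_) ?_)
    · intro a ha
      by_cases hsq : Squarefree (val f a.1)
      · exact Or.inl hsq
      simp only [squarefree_iff_forall, not_forall, not_not] at hsq
      obtain ⟨P, hm, hi, hd⟩ := hsq
      have hr : r < P.natDegree := by
        by_contra! h
        exact ha P (mem_irrSet.mpr ⟨h, hm, hi⟩) hd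
      rcases le_or_gt P.natDegree (n / 2) with h | h
      · exact Or.inr (Or.inl ⟨P, Finset.mem_filter.mpr ⟨mem_irrSet.mpr ⟨h, hm, hi⟩, hr⟩, hd⟩)
      · exact Or.inr (Or.inr ⟨P, hm, hi, h, by omega, hd⟩)
    · refine le_trans (prop_or_le _ _ _) (add_le_add le_rfl ((prop_or_le _ _ _).trans
        (add_le_add ?_ ?_)))
      · refine (prop_exists_le _ _ _).trans (le_of_eq_of_le ?_ (sum_rootShare_le h0 hr3 (n / 2)))
        refine Finset.sum_congr rfl fun P hP => prop_sq_dvd f ?_ ?_
        · exact (mem_irrSet.mp (Finset.mem_filter.mp hP).1).2.1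
        · have := (mem_irrSet.mp (Finset.mem_filter.mp hP).1).1
          omega
      · refine (prop_high_le p hf n).trans ?_
        rw [← mul_div_assoc]
        refine div_le_div₀ (by positivity) ?_ (by positivity)
          (pow_le_pow_right₀ hq.le (Nat.div_le_div_left (by omega) hpp.pos))
        have h1 : D + D ^ 2 * (D + n) ≤ (D + 1) ^ 3 * (n + 1) ^ 4 := by
          have h2 : n + 1 ≤ (n + 1) ^ 4 := Nat.le_self_pow (by norm_num) _
          have h3 : D + D ^ 2 * (D + n) ≤ (D + 1) ^ 3 * (n + 1) := by
            nlinarith [Nat.zero_le (D ^ 3 * n), Nat.zero_le (D ^ 2 * n), Nat.zero_le (D * n)]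
          exact h3.trans (Nat.mul_le_mul_left _ h2)
        exact_mod_cast h1
  have h3 := hN n hn2
  rw [Real.dist_eq, abs_sub_lt_iff] at hr1 ⊢
  constructor <;> linarith

end FA.SquarefreeFF
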