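import Fermat.Agent.SquarefreeFF.Basic
import Mathlib.Algebra.MvPolynomial.Nilpotent

/-!
# Twisted derivatives coprime to a squarefree polynomial

Over a perfect field `f_t + s f_x` is coprime to a squarefree `f` for all but at most `deg f`
polynomials `s` in `t`, one for each irreducible factor: inseparable factors exclude none.
-/

set_option autoImplicit false
set_option linter.style.openClassical false
set_option linter.style.haveILetI false

noncomputable section

open scoped Classical

namespace FA.SquarefreeFF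

open MvPolynomial

variable {k : Type*} [Field k]

theorem totalDegree_pderiv_lt_self {f : MvPolynomial (Fin 2) k} {i : Fin 2}
    (h : pderiv i f ≠ 0) : (pderiv i f).totalDegree < f.totalDegree := by
  obtain ⟨s, hs, he⟩ :=
    Finset.exists_mem_eq_sup _ (support_nonempty.2 h) fun s => s.sum fun _ e => e
  rw [mem_support_iff, coeff_pderiv] at hs
  have := le_totalDegree (mem_support_iff.2 (left_ne_zero_of_mul hs))
  rw [Finsupp.sum_add_index' (fun _ => rfl) fun _ _ _ => rfl, Finsupp.sum_single_index rfl] at this
  exact lt_of_eq_of_lt he (Nat.lt_of_succ_le this)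

theorem not_dvd_pderiv {f : MvPolynomial (Fin 2) k} {i : Fin 2} (h : pderiv i f ≠ 0) :
    ¬ f ∣ pderiv i f := fun hd =>
  absurd (totalDegree_le_of_dvd_of_isDomain hd h) (totalDegree_pderiv_lt_self h).not_ge

/-- Over a perfect field an irreducible polynomial has a nonzero partial derivative. -/
theorem exists_pderiv_ne_zero [PerfectField k] {g : MvPolynomial (Fin 2) k} (hg : Irreducible g) :
    pderiv 0 g ≠ 0 ∨ pderiv 1 g ≠ 0 := by
  by_contra! h
  obtain ⟨p, hp⟩ := CharP.exists k
  have hall : ∀ i, pderiv i g = 0 := Fin.forall_fin_two.mpr h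
  have hcast : ∀ s ∈ g.support, ∀ i, (s i : k) = 0 := fun s hs i => by
    rcases Nat.eq_zero_or_pos (s i) with h0 | h0
    · rw [h0, Nat.cast_zero]
    have hc := congrArg (coeff (s - Finsupp.single i 1)) (hall i)
    rw [coeff_pderiv, coeff_zero, tsub_add_cancel_of_le (Finsupp.single_le_iff.2 h0)] at hc
    have h1 := (mul_eq_zero.1 hc).resolve_left (mem_support_iff.1 hs)
    simp only [Finsupp.tsub_apply, Finsupp.single_eq_same] at h1
    rw [← Nat.cast_add_one, Nat.sub_add_cancel h0] at h1
    exact h1
  rcases CharP.char_is_prime_or_zero k p with hpp | rfl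
  · haveI := Fact.mk hpp
    haveI : ExpChar k p := ExpChar.prime hpp
    haveI : PerfectRing k p := PerfectField.toPerfectRing p
    haveI : ExpChar (MvPolynomial (Fin 2) k) p := ExpChar.prime hpp
    have hroot : g = (∑ s ∈ g.support, monomial (s.mapRange (· / p) (Nat.zero_div p))
        ((frobeniusEquiv k p).symm (g.coeff s))) ^ p := by
      rw [sum_pow_char p]
      conv_lhs => rw [g.as_sum]
      refine Finset.sum_congr rfl fun s hs => ?_
      rw [monomial_pow, frobeniusEquiv_symm_pow_p,
        show p • s.mapRange (· / p) (Nat.zero_div p) = s from Finsupp.ext fun i => by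
          rw [Finsupp.smul_apply, Finsupp.mapRange_apply, smul_eq_mul,
            Nat.mul_div_cancel' ((CharP.cast_eq_zero_iff k p _).1 (hcast s hs i))]]
    exact not_irreducible_pow hpp.ne_one (hroot ▸ hg)
  · haveI : CharZero k := CharP.charP_to_charZero k
    refine hg.not_isUnit ?_
    have h0 : g.totalDegree = 0 := (totalDegree_eq_zero_iff _ _).mpr fun s hs i => by
      exact_mod_cast hcast s hs i
    refine isUnit_iff_totalDegree_of_isReduced.mpr ⟨Ne.isUnit fun hc => hg.ne_zero ?_, h0⟩
    rw [totalDegree_eq_zero_iff_eq_C.mp h0, hc, map_zero]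

theorem pderiv_one_inT (w : Polynomial k) : pderiv 1 (inT w) = 0 := by
  induction w using Polynomial.induction_on' with
  | add u v hu hv => simp only [inT, map_add] at hu hv ⊢; rw [hu, hv, add_zero]
  | monomial n a =>
    rw [inT, Polynomial.aeval_monomial, MvPolynomial.algebraMap_eq, pderiv_C_mul, pderiv_pow,
      pderiv_X_of_ne (by decide), mul_zero, mul_zero]

theorem degreeOf_one_inT (w : Polynomial k) : degreeOf 1 (inT w) = 0 := by
  rw [inT, Polynomial.aeval_eq_sum_range]
  refine Nat.le_zero.mp ((degreeOf_sum_le _ _ _).trans (Finset.sup_le fun l _ => ?_))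
  rw [smul_eq_C_mul]
  refine (degreeOf_C_mul_le _ _ _).trans ?_
  rcases eq_or_ne l 0 with rfl | hl
  · simp
  · rw [degreeOf_pow_eq _ _ _ (X_ne_zero 0), degreeOf_X, if_neg (by decide), mul_zero]

theorem inT_injective : Function.Injective (fun w : Polynomial k => inT w) := fun w w' h => by
  have h' := congrArg (fun g => val g 0) h
  simpa only [val_inT] using h'

/-- An irreducible dividing a polynomial in `t` has no derivative in `x`. -/
theorem pderiv_one_eq_zero_of_dvd_inT {g : MvPolynomial (Fin 2) k} {w : Polynomial k}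
    (hw : w ≠ 0) (h : g ∣ inT w) : pderiv 1 g = 0 := by
  have hw' : inT w ≠ 0 := fun h0 => hw (inT_injective (h0.trans (map_zero _).symm))
  obtain ⟨M, hM⟩ := h
  have hd := degreeOf_one_inT w
  rw [hM, degreeOf_mul_eq (left_ne_zero_of_mul (hM ▸ hw')) (right_ne_zero_of_mul (hM ▸ hw'))] at hd
  refine pderiv_eq_zero_of_notMem_vars fun hv => ?_
  rw [mem_vars_iff_degreeOf_ne_zero] at hv
  omega

/-- At most one twist is divisible by a given irreducible. -/
theorem twist_dvd_unique [PerfectField k] {g : MvPolynomial (Fin 2) k} (hg : Irreducible g)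
    {s s' : Polynomial k} (hs : g ∣ twist g s) (hs' : g ∣ twist g s') : s = s' := by
  rcases eq_or_ne (pderiv 1 g) 0 with h1 | h1
  · rw [twist, h1, mul_zero, add_zero] at hs
    exact absurd hs (not_dvd_pderiv ((exists_pderiv_ne_zero hg).resolve_right fun h => h h1))
  · by_contra hne
    have h : g ∣ inT (s - s') * pderiv 1 g := by
      have := dvd_sub hs hs'
      rwa [twist, twist, add_sub_add_left_eq_sub, ← sub_mul, ← map_sub] at this
    rcases hg.prime.dvd_mul.mp h with h2 | h2
    · exact h1 (pderiv_one_eq_zero_of_dvd_inT (sub_ne_zero.mpr hne) h2)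
    · exact not_dvd_pderiv h1 h2

theorem card_le_totalDegree {s : Multiset (MvPolynomial (Fin 2) k)}
    (hs : ∀ Q ∈ s, Irreducible Q) : s.card ≤ s.prod.totalDegree := by
  induction s using Multiset.induction_on with
  | empty => simp
  | cons Q s ih =>
    have hQ := hs Q (Multiset.mem_cons_self _ _)
    have hs' := fun R (hR : R ∈ s) => hs R (Multiset.mem_cons_of_mem hR)
    have hprod : s.prod ≠ 0 := Multiset.prod_ne_zero fun h0 => (hs' 0 h0).ne_zero rfl
    rw [Multiset.card_cons, Multiset.prod_cons, totalDegree_mul_of_isDomain hQ.ne_zero hprod]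
    have h1 : Q.totalDegree ≠ 0 := fun h0 => hQ.not_isUnit
      (isUnit_iff_totalDegree_of_isReduced.mpr ⟨Ne.isUnit fun hc => hQ.ne_zero (by
        rw [totalDegree_eq_zero_iff_eq_C.mp h0, hc, map_zero]), h0⟩)
    have := ih hs'
    omega

/-- **All but few twists are coprime** to a squarefree polynomial. -/
theorem exists_exceptional [PerfectField k] {f : MvPolynomial (Fin 2) k} (hf : Squarefree f) :
    ∃ E : Finset (Polynomial k), E.card ≤ f.totalDegree ∧
      ∀ s ∉ E, IsRelPrime f (twist f s) := by
  set F := (UniqueFactorizationMonoid.factors f).toFinset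
  let bad : MvPolynomial (Fin 2) k → Polynomial k := fun g =>
    if h : ∃ s, g ∣ twist g s then h.choose else 0
  refine ⟨F.image bad, ?_, fun s hs d hdf hdg => by_contra fun hd => ?_⟩
  · obtain ⟨u, hu⟩ := UniqueFactorizationMonoid.factors_prod hf.ne_zero
    exact Finset.card_image_le.trans ((Multiset.toFinset_card_le _).trans
      ((card_le_totalDegree fun Q hQ =>
        UniqueFactorizationMonoid.irreducible_of_factor Q hQ).trans
          (totalDegree_le_of_dvd_of_isDomain ⟨u, hu.symm⟩ hf.ne_zero)))
  obtain ⟨Q, hQ, hQd⟩ :=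
    WfDvdMonoid.exists_irreducible_factor hd (ne_zero_of_dvd_ne_zero hf.ne_zero hdf)
  obtain ⟨g, hg, hass⟩ :=
    UniqueFactorizationMonoid.exists_mem_factors_of_dvd hf.ne_zero hQ (hQd.trans hdf)
  have hgf : g ∣ f := hass.dvd'.trans (hQd.trans hdf)
  have hgD : g ∣ twist f s := hass.dvd'.trans (hQd.trans hdg)
  have hirr := UniqueFactorizationMonoid.irreducible_of_factor g hg
  obtain ⟨h, rfl⟩ := hgf
  have hexp : twist (g * h) s = twist g s * h + g * twist h s := by
    simp only [twist, pderiv_mul]
    ring
  rw [hexp, dvd_add_left (dvd_mul_right _ _)] at hgD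
  rcases hirr.prime.dvd_mul.mp hgD with hd' | hd'
  · refine hs (Finset.mem_image.mpr ⟨g, Multiset.mem_toFinset.mpr hg, ?_⟩)
    have hex : ∃ s, g ∣ twist g s := ⟨s, hd'⟩
    simp only [bad, dif_pos hex]
    exact twist_dvd_unique hirr hex.choose_spec hd'
  · exact hirr.not_isUnit (hf g (mul_dvd_mul_left g hd'))

end FA.SquarefreeFF
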